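import Fermat.Agent.S16.Lower.Lattice
import Fermat.Prelude.Def_CuspForm_HeckeAlgebra

/-!
# Hecke operators and periods (weight 2)
-/

set_option autoImplicit false

namespace Fermat.Agent.S16.Lower

open CongruenceSubgroup ModularCurve ModularCurve.Period Fermat.Agent.ES UpperHalfPlane
  Matrix.SpecialLinearGroup Filter
open scoped MatrixGroups ModularForm

theorem slash_two_apply_of_det_pos (f : ℍ → ℂ) (g : GL (Fin 2) ℝ) (hg : 0 < g.val.det) (τ : ℍ) :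
    (f ∣[(2 : ℤ)] g) τ = f (g • τ) * ((g.val.det : ℂ) / denom g τ ^ 2) := by
  have hg' : 0 < (Matrix.GeneralLinearGroup.det g).val := by
    rwa [Matrix.GeneralLinearGroup.val_det_apply]
  rw [ModularForm.slash_apply, UpperHalfPlane.σ, if_pos hg', abs_of_pos hg',
    Matrix.GeneralLinearGroup.val_det_apply]
  simp [zpow_neg, div_eq_mul_inv, mul_assoc]

/-- Chain rule for the Möbius action of `GL(2, ℝ)⁺`. -/
theorem hasDerivAt_comp_smul_GL {F f : ℍ → ℂ}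
    (hF : ∀ τ : ℍ, HasDerivAt (F ∘ ofComplex) (f τ) ↑τ) (g : GL (Fin 2) ℝ) (hg : 0 < g.val.det)
    (τ : ℍ) :
    HasDerivAt ((fun w : ℍ => F (g • w)) ∘ ofComplex) ((f ∣[(2 : ℤ)] g) τ) ↑τ := by
  have h_smul : HasDerivAt (fun w ↦ ↑(g • ofComplex w) : ℂ → ℂ)
      ((g.val.det : ℂ) / denom g τ ^ 2) ↑τ := (hasStrictDerivAt_smul hg τ).hasDerivAt
  have h_F : HasDerivAt (F ∘ ofComplex) (f (g • ofComplex (τ : ℂ)))
      ↑(g • ofComplex (τ : ℂ)) := hF _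
  have h := h_F.comp (τ : ℂ) h_smul
  rw [ofComplex_apply, ← slash_two_apply_of_det_pos f g hg τ] at h
  refine h.congr_of_eventuallyEq (Eventually.of_forall fun w => ?_)
  simp [Function.comp]

variable {N : ℕ} [NeZero N]

/-- Periods of `∑ f ∣ αᵢ`. -/
theorem periodMap_hecke {ι : Type*} [Fintype ι] (α : ι → GL (Fin 2) ℝ)
    (hdet : ∀ i, 0 < (α i).val.det) (f Tf : CuspForm (Gamma0 N) 2)
    (hT : (⇑Tf : ℍ → ℂ) = ∑ i, (⇑f : ℍ → ℂ) ∣[(2 : ℤ)] α i)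
    (γ : Gamma0 N) (σ : Equiv.Perm ι) (γ' : ι → Gamma0 N)
    (hmul : ∀ i, α i * mapGL ℝ (γ : SL(2, ℤ)) = mapGL ℝ (γ' i : SL(2, ℤ)) * α (σ i)) :
    periodMap N Tf (Additive.ofMul γ) = ∑ i, periodMap N f (Additive.ofMul (γ' i)) := by
  obtain ⟨F, hF⟩ := exists_hasEquivariantPrimitive N f
  have hG : ∀ τ : ℍ, HasDerivAt ((fun w : ℍ => ∑ i, F (α i • w)) ∘ ofComplex) (Tf τ) ↑τ := by
    intro τ
    have h1 : HasDerivAt (fun w : ℂ => ∑ i, ((fun w : ℍ => F (α i • w)) ∘ ofComplex) w)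
        (∑ i, ((⇑f : ℍ → ℂ) ∣[(2 : ℤ)] α i) τ) ↑τ :=
      HasDerivAt.fun_sum fun i _ => hasDerivAt_comp_smul_GL hF.1 (α i) (hdet i) τ
    rw [hT, Finset.sum_apply]
    exact h1
  rw [periodMap_apply N Tf hG γ UpperHalfPlane.I]
  have h2 : ∀ i, periodMap N f (Additive.ofMul (γ' i))
      = F (α i • ((γ : SL(2, ℤ)) • UpperHalfPlane.I)) - F (α (σ i) • UpperHalfPlane.I) := by
    intro i
    rw [periodMap_apply N f hF.1 (γ' i) (α (σ i) • UpperHalfPlane.I)]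
    congr 2
    have e1 : ((γ' i : SL(2, ℤ)) • (α (σ i) • UpperHalfPlane.I) : ℍ)
        = (mapGL ℝ (γ' i : SL(2, ℤ)) * α (σ i)) • UpperHalfPlane.I := by
      rw [mul_smul]; rfl
    have e2 : (α i • ((γ : SL(2, ℤ)) • UpperHalfPlane.I) : ℍ)
        = (α i * mapGL ℝ (γ : SL(2, ℤ))) • UpperHalfPlane.I := by
      rw [mul_smul]; rfl
    rw [e1, e2, hmul]
  simp only [h2, Finset.sum_sub_distrib]
  rw [Equiv.sum_comp σ (fun i => F (α i • UpperHalfPlane.I))]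

end Fermat.Agent.S16.Lower
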