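import Fermat.Agent.S16.Lower.Main

/-!
# S16: reduction of the statement to the upper bound

`Nat.card (𝕋 ⧸ I) = n` follows from the lower bound (proved in `Main.lean`) and the existence of
a polynomial `Q` in the Hecke operators which kills `S₂(Γ₀(p))` and has Eisenstein eigenvalue `n`.
-/

set_option autoImplicit false

namespace Fermat.Agent.S16.Lower

open CongruenceSubgroup ModularCurve CuspForm
open scoped MatrixGroups

variable (p : ℕ) [Fact p.Prime]

theorem heckeEvalForms_surjective (N : ℕ) [NeZero N] (k : ℤ) :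
    Function.Surjective (heckeEvalForms N k) := by
  rintro ⟨y, hy⟩
  suffices h : ∃ Q, ((heckeEvalForms N k Q : heckeAlgebra N k ∅) :
      Module.End ℂ (CuspForm (Gamma0 N) k)) = y by
    obtain ⟨Q, hQ⟩ := h
    exact ⟨Q, Subtype.ext hQ⟩
  induction hy using Algebra.adjoin_induction with
  | mem x hx =>
    rcases hx with ⟨ℓ, hℓ, hℓN, -, rfl⟩ | ⟨q, hqN, hq, -, rfl⟩
    · refine ⟨heckeGen ⟨ℓ, hℓ⟩, ?_⟩
      rw [heckeEvalForms_heckeGen_of_not_dvd (ℓ := ⟨ℓ, hℓ⟩) hℓN]
      rfl
    · refine ⟨heckeGen ⟨q, hq⟩, ?_⟩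
      rw [heckeEvalForms_heckeGen_of_dvd (q := ⟨q, hq⟩) hqN]
      rfl
  | algebraMap a =>
    exact ⟨MvPolynomial.C a, by rw [heckeEvalForms_C]; rfl⟩
  | add x y _ _ hx hy =>
    obtain ⟨Q, rfl⟩ := hx
    obtain ⟨Q', rfl⟩ := hy
    exact ⟨Q + Q', by rw [map_add]; rfl⟩
  | mul x y _ _ hx hy =>
    obtain ⟨Q, rfl⟩ := hx
    obtain ⟨Q', rfl⟩ := hy
    exact ⟨Q * Q', by rw [map_mul]; rfl⟩

/-- The ring homomorphism of the statement S16. -/
noncomputable abbrev evLat : HeckeAlg →+* heckeLatticeAlgebra p ∅ :=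
  (latticeRestrictHom p ∅).toRingHom.comp (heckeEvalForms p 2)

theorem evLat_surjective : Function.Surjective (evLat p) :=
  (latticeRestrictHom_surjective p ∅).comp (heckeEvalForms_surjective p 2)

theorem evLat_eq_zero_iff (Q : HeckeAlg) : evLat p Q = 0 ↔ heckeEvalForms p 2 Q = 0 := by
  have hinj := (latticeRestrictHom_bijective p ∅ (Fermat.Agent.S23.result p)).1
  constructor
  · intro h
    apply hinj
    rw [map_zero]
    exact h
  · intro h
    show latticeRestrictHom p ∅ (heckeEvalForms p 2 Q) = 0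
    rw [h, map_zero]

theorem evLat_C (a : ℤ) : evLat p (MvPolynomial.C a) = (a : heckeLatticeAlgebra p ∅) := by
  have : (MvPolynomial.C a : HeckeAlg) = ((a : ℤ) : HeckeAlg) := by simp
  rw [this, map_intCast]

/-- Lower bound, in the form used for S16. -/
theorem dvd_of_intCast_mem (x : ℤ)
    (hx : (x : heckeLatticeAlgebra p ∅) ∈ Ideal.map (evLat p) (eisensteinIdeal p)) :
    (eisensteinNumerator p : ℤ) ∣ x := by
  rw [Ideal.mem_map_iff_of_surjective _ (evLat_surjective p)] at hx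
  obtain ⟨Q, hQ, hQx⟩ := hx
  have h0 : evLat p (Q - MvPolynomial.C x) = 0 := by rw [map_sub, hQx, evLat_C, sub_self]
  have h1 := eisensteinNumerator_dvd_aeval p _ ((evLat_eq_zero_iff p _).mp h0)
  have h2 : MvPolynomial.aeval (eisensteinSystem p) Q = 0 := (mem_eigenIdeal_iff _ _).mp hQ
  rw [map_sub, h2, MvPolynomial.aeval_C, zero_sub, dvd_neg] at h1
  exact h1

/-- Abstract algebra: the quotient of `R` by the image of the kernel of a character. -/
theorem card_quotient_map_ker {A R : Type*} [CommRing A] [CommRing R] (ev : A →+* R)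
    (hev : Function.Surjective ev) (χ : A →+* ℤ) (n : ℕ)
    (hlow : ∀ Q, ev Q = 0 → (n : ℤ) ∣ χ Q) (hup : ∃ Q, ev Q = 0 ∧ χ Q = n) :
    Nat.card (R ⧸ Ideal.map ev (RingHom.ker χ)) = n := by
  set J := Ideal.map ev (RingHom.ker χ) with hJ
  let ψ : ℤ →+* (R ⧸ J) := Int.castRingHom _
  have hψ : ∀ x : ℤ, ψ x = Ideal.Quotient.mk J (x : R) := fun x => by simp [ψ]
  have hmem : ∀ Q : A, ev Q - ((χ Q : ℤ) : R) ∈ J := by
    intro Q
    have : ev Q - ((χ Q : ℤ) : R) = ev (Q - ((χ Q : ℤ) : A)) := by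
      rw [map_sub, map_intCast]
    rw [this]
    apply Ideal.mem_map_of_mem
    rw [RingHom.mem_ker, map_sub, map_intCast]
    simp
  have hsurj : Function.Surjective ψ := by
    intro y
    obtain ⟨r, rfl⟩ := Ideal.Quotient.mk_surjective y
    obtain ⟨Q, rfl⟩ := hev r
    refine ⟨χ Q, ?_⟩
    rw [hψ, eq_comm, Ideal.Quotient.mk_eq_mk_iff_sub_mem]
    exact hmem Q
  have hker : RingHom.ker ψ = Ideal.span {((n : ℕ) : ℤ)} := by
    ext x
    rw [RingHom.mem_ker, Ideal.mem_span_singleton, hψ, Ideal.Quotient.eq_zero_iff_mem]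
    constructor
    · intro hx
      rw [hJ, Ideal.mem_map_iff_of_surjective _ hev] at hx
      obtain ⟨Q, hQ, hQx⟩ := hx
      have h0 : ev (Q - (x : A)) = 0 := by rw [map_sub, hQx, map_intCast, sub_self]
      have h1 := hlow _ h0
      rw [map_sub, RingHom.mem_ker.mp hQ, map_intCast, zero_sub, dvd_neg] at h1
      simpa using h1
    · rintro ⟨y, rfl⟩
      obtain ⟨Q, hQ0, hQn⟩ := hup
      have h1 := hmem Q
      rw [hQ0, hQn, zero_sub] at h1
      have h2 := J.neg_mem h1
      rw [neg_neg] at h2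
      push_cast
      exact J.mul_mem_right _ (by exact_mod_cast h2)
  have e1 := RingHom.quotientKerEquivOfSurjective hsurj
  have e0 := Ideal.quotEquivOfEq hker
  have e2 := ((Int.quotientSpanNatEquivZMod n).symm.trans e0.symm).trans e1
  rw [← Nat.card_congr e2.toEquiv, Nat.card_zmod]

/-- **S16 from the upper bound.** -/
theorem card_quotient_eq_of_upper
    (hup : ∃ Q : HeckeAlg, heckeEvalForms p 2 Q = 0 ∧
      MvPolynomial.aeval (eisensteinSystem p) Q = (eisensteinNumerator p : ℤ)) :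
    Nat.card (↥(heckeLatticeAlgebra p ∅) ⧸
        Ideal.map ((latticeRestrictHom p ∅).toRingHom.comp (heckeEvalForms p 2))
          (eisensteinIdeal p)) = eisensteinNumerator p := by
  refine card_quotient_map_ker (evLat p) (evLat_surjective p)
    (MvPolynomial.aeval (R := ℤ) (eisensteinSystem p)).toRingHom (eisensteinNumerator p) ?_ ?_
  · intro Q hQ
    exact eisensteinNumerator_dvd_aeval p Q ((evLat_eq_zero_iff p Q).mp hQ)
  · obtain ⟨Q, hQ0, hQn⟩ := hup
    exact ⟨Q, (evLat_eq_zero_iff p Q).mpr hQ0, hQn⟩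

end Fermat.Agent.S16.Lower
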