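import Fermat.Agent.S16.Lower.Shimura
import Fermat.Agent.S16.Lower.HeckePeriod
import Fermat.Prelude.Def_CuspForm_HeckeEvalForms

/-!
# The Shimura class is an Eisenstein eigenclass
-/

set_option autoImplicit false

namespace Fermat.Agent.S16.Lower

open CongruenceSubgroup ModularCurve ModularCurve.Period Fermat.Agent.ES UpperHalfPlane
  Matrix.SpecialLinearGroup
open scoped MatrixGroups ModularForm

open P2MW.S_ModularForm_heckeT_slash_eq_self_of_mem_Gamma0.ModularForm.HeckeSlashInvariance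

variable (p : ℕ) [Fact p.Prime]

instance instNeZeroPrime : NeZero p := ⟨(Fact.out : p.Prime).ne_zero⟩

/-- Entry `(1,1)` of a relation `α γ = γ' α'` between upper triangular (mod `p`) matrices. -/
theorem del_mul_of_rel (γ γ' : Gamma0 p) (α α' : GL (Fin 2) ℝ) (d b' d' : ℤ)
    (h10 : α 1 0 = 0) (h11 : α 1 1 = d) (h01' : α' 0 1 = b') (h11' : α' 1 1 = d')
    (hmul : α * mapGL ℝ (γ : SL(2, ℤ)) = mapGL ℝ (γ' : SL(2, ℤ)) * α') :
    (d : ZMod p) * (del p γ : ZMod p) = (del p γ' : ZMod p) * (d' : ZMod p) := by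
  have h := congrArg (fun M : GL (Fin 2) ℝ => M 1 1) hmul
  simp only [Matrix.GeneralLinearGroup.coe_mul, Matrix.mul_apply, Fin.sum_univ_two, h10, h11,
    h01', h11', mapGL_apply] at h
  have h' : d * (γ : SL(2, ℤ)) 1 1 = (γ' : SL(2, ℤ)) 1 0 * b' + (γ' : SL(2, ℤ)) 1 1 * d' := by
    have : ((d * (γ : SL(2, ℤ)) 1 1 : ℤ) : ℝ)
        = (((γ' : SL(2, ℤ)) 1 0 * b' + (γ' : SL(2, ℤ)) 1 1 * d' : ℤ) : ℝ) := by
      push_cast
      linarith
    exact_mod_cast this
  have hc : (((γ' : SL(2, ℤ)) 1 0 : ℤ) : ZMod p) = 0 := Gamma0_mem.mp γ'.2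
  have := congrArg (Int.cast : ℤ → ZMod p) h'
  push_cast at this
  rw [coe_del, coe_del]
  linear_combination this + (b' : ZMod p) * hc

/-- Entry `(0,0)` of a relation `α γ = γ' α'`. -/
theorem del_eq_of_rel (γ γ' : Gamma0 p) (α α' : GL (Fin 2) ℝ) (b : ℤ)
    (h00 : α 0 0 = 1) (h01 : α 0 1 = b) (h00' : α' 0 0 = 1) (h10' : α' 1 0 = 0)
    (hmul : α * mapGL ℝ (γ : SL(2, ℤ)) = mapGL ℝ (γ' : SL(2, ℤ)) * α') :
    del p γ' = del p γ := by
  have h := congrArg (fun M : GL (Fin 2) ℝ => M 0 0) hmul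
  simp only [Matrix.GeneralLinearGroup.coe_mul, Matrix.mul_apply, Fin.sum_univ_two, h00, h01,
    h00', h10', mapGL_apply] at h
  have h' : (γ : SL(2, ℤ)) 0 0 + b * (γ : SL(2, ℤ)) 1 0 = (γ' : SL(2, ℤ)) 0 0 := by
    have : (((γ : SL(2, ℤ)) 0 0 + b * (γ : SL(2, ℤ)) 1 0 : ℤ) : ℝ)
        = (((γ' : SL(2, ℤ)) 0 0 : ℤ) : ℝ) := by
      push_cast
      linarith
    exact_mod_cast this
  have hc : (((γ : SL(2, ℤ)) 1 0 : ℤ) : ZMod p) = 0 := Gamma0_mem.mp γ.2
  have h2 := congrArg (Int.cast : ℤ → ZMod p) h'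
  push_cast at h2
  have e1 := entries_mul_eq_one p γ
  have e2 := entries_mul_eq_one p γ'
  apply Units.ext
  rw [coe_del, coe_del]
  set a : ZMod p := (((γ : SL(2, ℤ)) 0 0 : ℤ) : ZMod p)
  set d : ZMod p := (((γ : SL(2, ℤ)) 1 1 : ℤ) : ZMod p)
  set a' : ZMod p := (((γ' : SL(2, ℤ)) 0 0 : ℤ) : ZMod p)
  set d' : ZMod p := (((γ' : SL(2, ℤ)) 1 1 : ℤ) : ZMod p)
  have h3 : a' = a := by rw [← h2, hc, mul_zero, add_zero]
  rw [h3] at e2
  calc d' = (a * d) * d' := by rw [e1, one_mul]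
    _ = (a * d') * d := by ring
    _ = d := by rw [e2, one_mul]

/-- `Eis t c`: the transpose of `t` preserves the period lattice and acts on the Shimura class
through the integer `c`. -/
def Eis (t : Module.End ℂ (CuspForm (Gamma0 p) 2)) (c : ℤ) : Prop :=
  ∀ γ : Additive (Gamma0 p), ∃ γ₂ : Additive (Gamma0 p),
    (perHom p γ) ∘ₗ t = perHom p γ₂ ∧ phi0 p γ₂ = c • phi0 p γ

theorem Eis.add {t t' : Module.End ℂ (CuspForm (Gamma0 p) 2)} {c c' : ℤ} (h : Eis p t c)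
    (h' : Eis p t' c') : Eis p (t + t') (c + c') := by
  intro γ
  obtain ⟨γ₂, h1, h2⟩ := h γ
  obtain ⟨γ₃, h3, h4⟩ := h' γ
  refine ⟨γ₂ + γ₃, ?_, ?_⟩
  · rw [map_add, ← h1, ← h3, LinearMap.comp_add]
  · rw [map_add, h2, h4, add_zsmul]

theorem Eis.mul {t t' : Module.End ℂ (CuspForm (Gamma0 p) 2)} {c c' : ℤ} (h : Eis p t c)
    (h' : Eis p t' c') : Eis p (t * t') (c * c') := by
  intro γ
  obtain ⟨γ₂, h1, h2⟩ := h γ
  obtain ⟨γ₃, h3, h4⟩ := h' γ₂
  refine ⟨γ₃, ?_, ?_⟩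
  · rw [← h3, ← h1]
    rfl
  · rw [h4, h2, smul_smul, mul_comm]

theorem Eis.algebraMap (a : ℤ) :
    Eis p (algebraMap ℤ (Module.End ℂ (CuspForm (Gamma0 p) 2)) a) a := by
  intro γ
  refine ⟨a • γ, ?_, ?_⟩
  · rw [map_zsmul]
    ext f
    simp
  · rw [map_zsmul]

/-- General principle: a Hecke operator given by coset representatives. -/
theorem Eis.of_reps {ι : Type*} [Fintype ι] (α : ι → GL (Fin 2) ℝ)
    (hdet : ∀ i, 0 < (α i).val.det) (t : Module.End ℂ (CuspForm (Gamma0 p) 2))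
    (hT : ∀ f, (⇑(t f) : ℍ → ℂ) = ∑ i, (⇑f : ℍ → ℂ) ∣[(2 : ℤ)] α i) (c : ℤ)
    (hperm : ∀ γ : Gamma0 p, ∃ (σ : Equiv.Perm ι) (γ' : ι → Gamma0 p),
      (∀ i, α i * mapGL ℝ (γ : SL(2, ℤ)) = mapGL ℝ (γ' i : SL(2, ℤ)) * α (σ i)) ∧
      ∏ i, del p (γ' i) ^ 12 = (del p γ ^ 12) ^ c) : Eis p t c := by
  intro γ
  obtain ⟨σ, γ', hmul, hprod⟩ := hperm (Additive.toMul γ)
  refine ⟨(List.map (fun i => Additive.ofMul (γ' i)) (Finset.univ : Finset ι).toList).sum,
    ?_, ?_⟩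
  · rw [map_list_sum, List.map_map, Finset.sum_map_toList]
    ext f
    rw [LinearMap.comp_apply, perHom_apply, LinearMap.sum_apply]
    exact periodMap_hecke α hdet f (t f) (hT f) (Additive.toMul γ) σ γ' hmul
  · rw [map_list_sum, List.map_map, Finset.sum_map_toList]
    have h1 : ∀ i, (⇑(phi0 p) ∘ fun i => Additive.ofMul (γ' i)) i
        = Additive.ofMul (del p (γ' i) ^ 12) := fun i => rfl
    simp only [h1]
    rw [← ofMul_prod, hprod]
    rfl

omit [Fact p.Prime] in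
theorem pow_twelve_pow_aux {G : Type*} [CommGroup G] (u : G) (n q : ℕ) (hn : n = q + 1)
    (h : u ^ q = 1) : (u ^ 12) ^ n = u ^ 12 := by
  rw [hn, pow_succ, ← pow_mul, mul_comm 12, pow_mul, h, one_pow, one_mul]

theorem eis_U : Eis p (CuspForm.heckeULin 2 (dvd_refl p)) 1 := by
  have hp : p ≠ 0 := (Fact.out : p.Prime).ne_zero
  refine Eis.of_reps p (fun x : ZMod p => ModularForm.heckeMatrix p x.val) ?_ _ ?_ 1 ?_
  · intro x
    have := ModularForm.det_heckeMatrix_pos p x.val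
    rwa [Matrix.GeneralLinearGroup.val_det_apply] at this
  · intro f
    rw [CuspForm.coe_heckeULin_apply]
    exact heckeU_eq_sum_zmod _ _
  · intro γ
    have hc : (p : ℤ) ∣ (γ : SL(2, ℤ)) 1 0 :=
      (ZMod.intCast_zmod_eq_zero_iff_dvd _ _).mp (Gamma0_mem.mp γ.2)
    have key : ∀ x : ZMod p, ∃ g' : Gamma0 p,
        ModularForm.heckeMatrix p x.val * mapGL ℝ (γ : SL(2, ℤ)) = mapGL ℝ (g' : SL(2, ℤ)) *
          ModularForm.heckeMatrix p
            (affinePerm (γ : SL(2, ℤ)) ((ZMod.intCast_zmod_eq_zero_iff_dvd _ _).mpr hc) x).val := by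
      intro x
      obtain ⟨g', hg', hmul⟩ := heckeMatrix_mul_of_dvd (γ : SL(2, ℤ)) hc x
      refine ⟨⟨g', ?_⟩, hmul⟩
      rw [Gamma0_mem, hg']
      push_cast
      rw [Gamma0_mem.mp γ.2, mul_zero]
    choose γ' hγ' using key
    refine ⟨affinePerm (γ : SL(2, ℤ)) ((ZMod.intCast_zmod_eq_zero_iff_dvd _ _).mpr hc), γ', hγ', ?_⟩
    have h1 : ∀ x, del p (γ' x) = del p γ := by
      intro x
      refine del_eq_of_rel p γ (γ' x) _ _ (x.val : ℤ) ?_ ?_ ?_ ?_ (hγ' x)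
      · simp [ModularForm.val_heckeMatrix hp]
      · simp [ModularForm.val_heckeMatrix hp]
      · simp [ModularForm.val_heckeMatrix hp]
      · simp [ModularForm.val_heckeMatrix hp]
    simp only [h1, Finset.prod_const, Finset.card_univ, ZMod.card, zpow_one]
    have h2 : del p γ ^ (p - 1) = 1 := ZMod.units_pow_card_sub_one_eq_one p _
    exact pow_twelve_pow_aux _ p (p - 1) (by
      have := (Fact.out : p.Prime).one_lt
      omega) h2

theorem eis_T {r : ℕ} (hr : r.Prime) (hrp : ¬ r ∣ p) :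
    Eis p (CuspForm.heckeTLin 2 hr hrp) (1 + r) := by
  have : Fact r.Prime := ⟨hr⟩
  have : NeZero r := ⟨hr.ne_zero⟩
  have hr0 : r ≠ 0 := hr.ne_zero
  have hcop : Nat.Coprime r p :=
    (Nat.coprime_primes hr (Fact.out : p.Prime)).mpr (fun h => hrp (h ▸ dvd_refl _))
  refine Eis.of_reps p (heckeRep r) ?_ _ ?_ (1 + r) ?_
  · intro x
    induction x using OnePoint.rec with
    | infty =>
      have := ModularForm.det_heckeDiagMatrix_pos r
      rwa [Matrix.GeneralLinearGroup.val_det_apply] at this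
    | coe j =>
      have := ModularForm.det_heckeMatrix_pos r j.val
      rwa [Matrix.GeneralLinearGroup.val_det_apply] at this
  · intro f
    rw [CuspForm.coe_heckeTLin_apply]
    exact heckeT_eq_sum_onePoint _ _
  · intro γ
    have hc : (p : ℤ) ∣ (γ : SL(2, ℤ)) 1 0 :=
      (ZMod.intCast_zmod_eq_zero_iff_dvd _ _).mp (Gamma0_mem.mp γ.2)
    have key : ∀ x : OnePoint (ZMod r), ∃ g' : Gamma0 p,
        heckeRep r x * mapGL ℝ (γ : SL(2, ℤ)) = mapGL ℝ (g' : SL(2, ℤ)) *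
          heckeRep r (redMatrix r (γ : SL(2, ℤ)) • x) := by
      intro x
      obtain ⟨g', hg', hmul⟩ := heckeRep_mul hrp (γ : SL(2, ℤ)) hc x
      exact ⟨⟨g', Gamma0_mem.mpr ((ZMod.intCast_zmod_eq_zero_iff_dvd _ _).mpr hg')⟩, hmul⟩
    choose γ' hγ' using key
    refine ⟨MulAction.toPerm (redMatrix r (γ : SL(2, ℤ))), γ', hγ', ?_⟩
    -- the diagonal entries
    let ε : OnePoint (ZMod r) → (ZMod p)ˣ := fun x => x.elim 1 (fun _ => ZMod.unitOfCoprime r hcop)
    have hent : ∀ x : OnePoint (ZMod r), ∃ b d : ℤ, heckeRep r x 1 0 = 0 ∧ heckeRep r x 0 1 = b ∧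
        heckeRep r x 1 1 = d ∧ (d : ZMod p) = ε x := by
      intro x
      induction x using OnePoint.rec with
      | infty =>
        refine ⟨0, 1, ?_, ?_, ?_, ?_⟩
        · simp [heckeRep_infty, ModularForm.val_heckeDiagMatrix hr0]
        · simp [heckeRep_infty, ModularForm.val_heckeDiagMatrix hr0]
        · simp [heckeRep_infty, ModularForm.val_heckeDiagMatrix hr0]
        · simp [ε]
      | coe j =>
        refine ⟨j.val, r, ?_, ?_, ?_, ?_⟩
        · simp [heckeRep_coe, ModularForm.val_heckeMatrix hr0]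
        · simp [heckeRep_coe, ModularForm.val_heckeMatrix hr0]
        · simp [heckeRep_coe, ModularForm.val_heckeMatrix hr0]
        · simp [ε]
    have h1 : ∀ x, ε x * del p γ = del p (γ' x) * ε (redMatrix r (γ : SL(2, ℤ)) • x) := by
      intro x
      obtain ⟨b, d, e10, e01, e11, ed⟩ := hent x
      obtain ⟨b', d', e10', e01', e11', ed'⟩ := hent (redMatrix r (γ : SL(2, ℤ)) • x)
      apply Units.ext
      rw [Units.val_mul, Units.val_mul, ← ed, ← ed']
      exact del_mul_of_rel p γ (γ' x) _ _ d b' d' e10 e11 e01' e11' (hγ' x)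
    have h2 : (∏ x, ε x) * del p γ ^ (r + 1) = (∏ x, del p (γ' x)) * ∏ x, ε x := by
      have e1 : ∏ x, (ε x * del p γ) = (∏ x, ε x) * del p γ ^ (r + 1) := by
        rw [Finset.prod_mul_distrib, Finset.prod_const, Finset.card_univ]
        congr 2
        have : Fintype.card (OnePoint (ZMod r)) = Fintype.card (Option (ZMod r)) := rfl
        rw [this, Fintype.card_option, ZMod.card]
      have e2 : ∏ x, (del p (γ' x) * ε (redMatrix r (γ : SL(2, ℤ)) • x))
          = (∏ x, del p (γ' x)) * ∏ x, ε x := by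
        rw [Finset.prod_mul_distrib]
        congr 1
        exact Equiv.prod_comp (MulAction.toPerm (redMatrix r (γ : SL(2, ℤ)))) ε
      rw [← e1, ← e2]
      exact Finset.prod_congr rfl fun x _ => h1 x
    have h3 : ∏ x, del p (γ' x) = del p γ ^ (r + 1) := by
      rw [mul_comm] at h2
      exact (mul_right_cancel h2).symm
    rw [Finset.prod_pow, h3, ← pow_mul, mul_comm, pow_mul]
    have : ((1 : ℤ) + r) = ((r + 1 : ℕ) : ℤ) := by push_cast; ring
    rw [this, zpow_natCast]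

end Fermat.Agent.S16.Lower
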