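import Mathlib

/-!
# Homomorphisms to torsion groups factoring through a free quotient

`π : G →+ Λ` surjective, `Λ` a projective `ℤ`-module, `E ⊆ ker π`.  If for every prime `ℓ`
every homomorphism `G →+ ZMod ℓ` killing `E` kills `ker π`, then the same is true for every
homomorphism to an abelian group of finite exponent.
-/

set_option autoImplicit false

namespace Fermat.Agent.S16.Lower

universe u

theorem kills_ker_of_module {G : Type*} [AddGroup G] (E : Set G) (x : G) (ℓ : ℕ) [Fact ℓ.Prime]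
    (hbase : ∀ φ : G →+ ZMod ℓ, (∀ e ∈ E, φ e = 0) → φ x = 0)
    {Q : Type*} [AddCommGroup Q] [Module (ZMod ℓ) Q] (φ : G →+ Q)
    (hφ : ∀ e ∈ E, φ e = 0) : φ x = 0 := by
  refine (Module.forall_dual_apply_eq_zero_iff (ZMod ℓ) (φ x)).mp ?_
  intro f
  exact hbase (f.toAddMonoidHom.comp φ) (fun e he => by simp [hφ e he])

/-- The case of groups killed by a prime. -/
theorem kills_ker_of_prime {G : Type*} [AddGroup G] (E : Set G) (x : G) (ℓ : ℕ) [Fact ℓ.Prime]
    (hbase : ∀ φ : G →+ ZMod ℓ, (∀ e ∈ E, φ e = 0) → φ x = 0)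
    {Q : Type*} [AddCommGroup Q] (hQ : ∀ q : Q, ℓ • q = 0) (φ : G →+ Q)
    (hφ : ∀ e ∈ E, φ e = 0) : φ x = 0 :=
  @kills_ker_of_module G _ E x ℓ _ hbase Q _ (AddCommGroup.zmodModule hQ) φ hφ

theorem kills_ker_of_exponent {G Λ : Type*} [AddGroup G] [AddCommGroup Λ] [Module.Projective ℤ Λ]
    (π : G →+ Λ) (hπ : Function.Surjective π) (E : Set G) (hE : ∀ e ∈ E, π e = 0)
    (hbase : ∀ (ℓ : ℕ) [Fact ℓ.Prime] (φ : G →+ ZMod ℓ), (∀ e ∈ E, φ e = 0) →
      ∀ x, π x = 0 → φ x = 0)
    (n : ℕ) (hn : 0 < n) :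
    ∀ (M : Type u) [AddCommGroup M], (∀ m : M, n • m = 0) → ∀ φ : G →+ M, (∀ e ∈ E, φ e = 0) →
      ∀ x, π x = 0 → φ x = 0 := by
  induction n using Nat.strong_induction_on with
  | _ n ih =>
    intro M _ hM φ hφ x hx
    by_cases h1 : n = 1
    · have := hM (φ x)
      rwa [h1, one_smul] at this
    set ℓ := n.minFac with hℓ
    have hℓp : ℓ.Prime := Nat.minFac_prime h1
    have : Fact ℓ.Prime := ⟨hℓp⟩
    obtain ⟨k, hk⟩ : ℓ ∣ n := Nat.minFac_dvd n
    have hk0 : 0 < k := by
      rcases Nat.eq_zero_or_pos k with h | h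
      · rw [h, mul_zero] at hk; omega
      · exact h
    have hkn : k < n := by
      rw [hk]
      exact lt_mul_of_one_lt_left hk0 hℓp.one_lt
    -- the subgroup `ℓ M`
    let L : AddSubgroup M := (nsmulAddMonoidHom (α := M) ℓ).range
    have hQ : ∀ q : M ⧸ L, ℓ • q = 0 := by
      intro q
      induction q using QuotientAddGroup.induction_on with
      | H m =>
        rw [← QuotientAddGroup.mk_nsmul, QuotientAddGroup.eq_zero_iff]
        exact ⟨m, rfl⟩
    let φbar : G →+ M ⧸ L := (QuotientAddGroup.mk' L).comp φ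
    have hφbar : ∀ y, π y = 0 → φbar y = 0 := by
      intro y hy
      exact kills_ker_of_prime E y ℓ (fun ψ hψ => hbase ℓ ψ hψ y hy) hQ φbar
        (fun e he => by simp [φbar, hφ e he])
    let lbar : Λ →+ M ⧸ L := π.liftOfRightInverse (Function.surjInv hπ)
      (Function.rightInverse_surjInv hπ) ⟨φbar, fun y hy => hφbar y hy⟩
    have hlbar : ∀ y, lbar (π y) = φbar y := fun y =>
      AddMonoidHom.liftOfRightInverse_comp_apply π _ (Function.rightInverse_surjInv hπ)
        ⟨φbar, fun y hy => hφbar y hy⟩ y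
    obtain ⟨l1, hl1⟩ := Module.projective_lifting_property
      (QuotientAddGroup.mk' L).toIntLinearMap lbar.toIntLinearMap
      (QuotientAddGroup.mk'_surjective L)
    have hl1' : ∀ v : Λ, (QuotientAddGroup.mk' L) (l1 v) = lbar v := fun v =>
      LinearMap.congr_fun hl1 v
    let ψ : G →+ M := φ - l1.toAddMonoidHom.comp π
    have hψL : ∀ y, ψ y ∈ L := by
      intro y
      rw [← QuotientAddGroup.eq_zero_iff]
      have : ((ψ y : M) : M ⧸ L) = φbar y - (QuotientAddGroup.mk' L) (l1 (π y)) := by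
        simp [ψ, φbar]
      rw [this, hl1', hlbar, sub_self]
    let ψ1 : G →+ L := ψ.codRestrict L hψL
    have hL : ∀ m : L, k • m = 0 := by
      rintro ⟨_, m, rfl⟩
      apply Subtype.ext
      show k • (ℓ • m) = 0
      rw [smul_smul, mul_comm, ← hk, hM]
    have h2 := ih k hkn hk0 L hL ψ1 (fun e he => by
      apply Subtype.ext
      show ψ e = 0
      simp [ψ, hφ e he, hE e he]) x hx
    have h3 : ψ x = 0 := congrArg Subtype.val h2
    simpa [ψ, hx] using h3

end Fermat.Agent.S16.Lower
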