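import Fermat.Agent.S16.Lower.ShapiroK
import Fermat.Agent.S16.Lower.Factor
import Fermat.Agent.ES.Main

/-!
# The period lattice of `Γ₀(N)` and homomorphisms factoring through it
-/

set_option autoImplicit false

namespace Fermat.Agent.S16.Lower

open CongruenceSubgroup ModularCurve ModularCurve.Period Fermat.Agent.ES
open scoped MatrixGroups ComplexConjugate

noncomputable section

variable (N : ℕ) [NeZero N]

/-- The period homomorphism `γ ↦ (f ↦ ∫_γ f)`. -/
def perHom : Additive (Gamma0 N) →+ Module.Dual ℂ (CuspForm (Gamma0 N) 2) where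
  toFun γ :=
    { toFun := fun f => periodMap N f γ
      map_add' := fun f g => by rw [periodMap_add]; rfl
      map_smul' := fun c f => by rw [periodMap_smul]; rfl }
  map_zero' := by
    ext f
    exact map_zero (periodMap N f)
  map_add' γ δ := by
    ext f
    exact map_add (periodMap N f) γ δ

@[simp] theorem perHom_apply (γ : Additive (Gamma0 N)) (f : CuspForm (Gamma0 N) 2) :
    perHom N γ f = periodMap N f γ := rfl

/-- The period lattice. -/
def perLat : AddSubgroup (Module.Dual ℂ (CuspForm (Gamma0 N) 2)) := (perHom N).range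

/-- The period homomorphism, onto the period lattice. -/
def perPi : Additive (Gamma0 N) →+ perLat N := (perHom N).rangeRestrict

theorem perPi_surjective : Function.Surjective (perPi N) := (perHom N).rangeRestrict_surjective

@[simp] theorem coe_perPi (γ : Additive (Gamma0 N)) :
    ((perPi N γ : perLat N) : Module.Dual ℂ (CuspForm (Gamma0 N) 2)) = perHom N γ := rfl

theorem perPi_eq_zero_iff (γ : Additive (Gamma0 N)) : perPi N γ = 0 ↔ perHom N γ = 0 := by
  rw [← coe_perPi, ZeroMemClass.coe_eq_zero]


instance instFiniteperLat : Module.Finite ℤ (perLat N) := by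
  have h0 : Group.FG SL(2, ℤ) := by
    rw [Group.fg_iff]
    exact ⟨{ModularGroup.S, ModularGroup.T}, SpecialLinearGroup.SL2Z_generators, by simp⟩
  have h : Group.FG (Gamma0 N) := inferInstance
  have h1 : AddGroup.FG (Additive (Gamma0 N)) := inferInstance
  have h2 : AddGroup.FG (perLat N) := AddGroup.fg_of_surjective (perPi_surjective N)
  exact Module.Finite.iff_addGroup_fg.mpr h2

theorem isAddTorsionFree_perLat : IsAddTorsionFree (perLat N) where
  nsmul_right_injective n hn a b hab := by
    apply Subtype.ext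
    have h : (n : ℂ) • (a : Module.Dual ℂ (CuspForm (Gamma0 N) 2)) =
        (n : ℂ) • (b : Module.Dual ℂ (CuspForm (Gamma0 N) 2)) := by
      simp only [Nat.cast_smul_eq_nsmul]
      exact congrArg Subtype.val hab
    exact smul_right_injective _ (Nat.cast_ne_zero.mpr hn) h

instance instFreeperLat : Module.Free ℤ (perLat N) := by
  have := isAddTorsionFree_perLat N
  exact Module.free_of_finite_type_torsion_free'

/-- Composition with the period homomorphism. -/
def compPi (K : Type*) [Field K] : (perLat N →ₗ[ℤ] K) →ₗ[K] (Additive (Gamma0 N) →+ K) where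
  toFun l := l.toAddMonoidHom.comp (perPi N)
  map_add' _ _ := rfl
  map_smul' _ _ := rfl

theorem compPi_apply (K : Type*) [Field K] (l : perLat N →ₗ[ℤ] K) (γ : Additive (Gamma0 N)) :
    compPi N K l γ = l (perPi N γ) := rfl

theorem compPi_injective (K : Type*) [Field K] : Function.Injective (compPi N K) := by
  intro l l' h
  ext v
  obtain ⟨γ, rfl⟩ := perPi_surjective N v
  exact DFunLike.congr_fun h γ

theorem finrank_hom_perLat (K : Type*) [Field K] :
    Module.finrank K (perLat N →ₗ[ℤ] K) = Module.finrank ℤ (perLat N) := by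
  rw [← ((Module.Free.chooseBasis ℤ (perLat N)).constr K).finrank_eq,
    Module.finrank_fintype_fun_eq_card, Module.finrank_eq_card_chooseBasisIndex]

instance instFiniteHomperLat (K : Type*) [Field K] : Module.Finite K (perLat N →ₗ[ℤ] K) :=
  Module.Finite.equiv ((Module.Free.chooseBasis ℤ (perLat N)).constr K)

/-- Evaluation at a cusp form. -/
def evL (f : CuspForm (Gamma0 N) 2) : perLat N →ₗ[ℤ] ℂ :=
  AddMonoidHom.toIntLinearMap
    { toFun := fun l => l.1 f
      map_zero' := rfl
      map_add' := fun _ _ => rfl }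

/-- Minus the conjugate of the evaluation at the conjugate form. -/
def conjL (f : CuspForm (Gamma0 N) 2) : perLat N →ₗ[ℤ] ℂ :=
  AddMonoidHom.toIntLinearMap
    { toFun := fun l => -conj (l.1 (conjForm f))
      map_zero' := by simp
      map_add' := fun a b => by
        simp only [AddSubgroup.coe_add, LinearMap.add_apply, map_add, neg_add] }

theorem compPi_evL (f : CuspForm (Gamma0 N) 2) : compPi N ℂ (evL N f) = periodMap N f := rfl

theorem compPi_conjL (f : CuspForm (Gamma0 N) 2) :
    compPi N ℂ (conjL N f) = charInvolution N ℂ ℂ (periodMap N f) := by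
  refine AddMonoidHom.ext fun γ => ?_
  have h := charInvolution_periodMap_conjForm N (conjForm f) (Additive.toMul γ)
  rw [conjForm_conjForm] at h
  exact h.symm

theorem parabolicHoms_le_range_compPi :
    parabolicHoms ℂ (Gamma0 N) ℂ ≤ LinearMap.range (compPi N ℂ) := by
  rw [← (eichlerShimura N).2]
  rintro _ ⟨⟨f, g⟩, rfl⟩
  rw [periodHomPair_apply, ← compPi_conjL, ← compPi_conjL, ← compPi_evL, ← compPi_evL,
    ← map_add, ← map_sub, ← map_add]
  exact LinearMap.mem_range_self _ _

theorem two_mul_finrank_le_finrank_perLat :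
    2 * Module.finrank ℂ (CuspForm (Gamma0 N) 2) ≤ Module.finrank ℤ (perLat N) := by
  have := finite_cuspForm N
  have h1 : Module.finrank ℂ (parabolicHoms ℂ (Gamma0 N) ℂ)
      = 2 * Module.finrank ℂ (CuspForm (Gamma0 N) 2) := by
    rw [← (eichlerShimura N).2, LinearMap.finrank_range_of_inj (eichlerShimura N).1,
      Module.finrank_prod, two_mul]
  have h2 := Submodule.finrank_mono (parabolicHoms_le_range_compPi N)
  rw [LinearMap.finrank_range_of_inj (compPi_injective N ℂ), finrank_hom_perLat] at h2
  omega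

omit [NeZero N] in
theorem pow_twelve_eq_one_of_trace (γ : SL(2, ℤ))
    (h : (γ : Matrix (Fin 2) (Fin 2) ℤ).trace ^ 2 < 4) : γ ^ 12 = 1 := by
  set A : Matrix (Fin 2) (Fin 2) ℤ := (γ : Matrix (Fin 2) (Fin 2) ℤ) with hA
  have hdet : A 0 0 * A 1 1 - A 0 1 * A 1 0 = 1 := by
    have := γ.det_coe
    rwa [Matrix.det_fin_two] at this
  have hCH : A * A = A.trace • A - 1 := by
    rw [Matrix.trace_fin_two]
    ext i j
    fin_cases i <;> fin_cases j <;>
      simp only [Matrix.mul_apply, Fin.sum_univ_two, Matrix.sub_apply, Matrix.smul_apply,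
        smul_eq_mul, Fin.zero_eta, Fin.mk_one, Fin.isValue, Matrix.one_apply_eq, ne_eq,
        zero_ne_one, one_ne_zero, not_false_eq_true, Matrix.one_apply_ne] <;>
      first | linear_combination (-1 : ℤ) * hdet | linear_combination (0 : ℤ) * hdet
  have ht : A.trace = 0 ∨ A.trace = 1 ∨ A.trace = -1 := by
    have h1 : A.trace < 2 := by nlinarith
    have h2 : -2 < A.trace := by nlinarith
    omega
  have key : A ^ 12 = 1 := by
    rcases ht with ht | ht | ht
    · rw [ht, zero_smul, zero_sub] at hCH
      have : A ^ 12 = (A * A) ^ 6 := by rw [← pow_two, ← pow_mul]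
      rw [this, hCH]
      exact Even.neg_one_pow (by decide)
    · rw [ht, one_smul] at hCH
      have h3 : A ^ 3 = -1 := by
        rw [pow_succ, pow_two, hCH, sub_mul, one_mul, hCH]
        abel
      have : A ^ 12 = (A ^ 3) ^ 4 := by rw [← pow_mul]
      rw [this, h3]
      exact Even.neg_one_pow (by decide)
    · rw [ht, neg_one_smul] at hCH
      have h3 : A ^ 3 = 1 := by
        rw [pow_succ, pow_two, hCH, sub_mul, one_mul, neg_mul, hCH]
        abel
      have : A ^ 12 = (A ^ 3) ^ 4 := by rw [← pow_mul]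
      rw [this, h3, one_pow]
  apply Subtype.ext
  rw [Matrix.SpecialLinearGroup.coe_pow, Matrix.SpecialLinearGroup.coe_one]
  exact key

theorem perHom_eq_zero_of_trace (γ : Gamma0 N)
    (h : ((γ : SL(2, ℤ)) : Matrix (Fin 2) (Fin 2) ℤ).trace ^ 2 ≤ 4) :
    perHom N (Additive.ofMul γ) = 0 := by
  rcases h.lt_or_eq with h | h
  · have h1 : γ ^ 12 = 1 := Subtype.ext (pow_twelve_eq_one_of_trace _ h)
    have h2 : (12 : ℕ) • perHom N (Additive.ofMul γ) = 0 := by
      rw [← map_nsmul, ← ofMul_pow, h1, ofMul_one, map_zero]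
    have h3 : (12 : ℂ) • perHom N (Additive.ofMul γ) = 0 := by
      rw [← h2]
      exact_mod_cast Nat.cast_smul_eq_nsmul ℂ 12 (perHom N (Additive.ofMul γ))
    exact (smul_eq_zero.mp h3).resolve_left (by norm_num)
  · ext f
    exact periodMap_mem_parabolicHoms N f γ h

theorem range_compPi_le_neHoms (K : Type*) [Field K] :
    LinearMap.range (compPi N K) ≤ neHoms K (Gamma0 N) K := by
  rintro _ ⟨l, rfl⟩ γ hγ
  rw [compPi_apply, (perPi_eq_zero_iff N _).mpr (perHom_eq_zero_of_trace N γ hγ), map_zero]

theorem range_compPi_eq_neHoms (K : Type*) [Field K] :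
    LinearMap.range (compPi N K) = neHoms K (Gamma0 N) K := by
  obtain ⟨hfin, hle⟩ := finrank_neHoms_add_d0_le K (Gamma0 N)
  apply Submodule.eq_of_le_of_finrank_le (range_compPi_le_neHoms N K)
  rw [LinearMap.finrank_range_of_inj (compPi_injective N K), finrank_hom_perLat]
  have h1 := two_mul_finrank_le_finrank_perLat N
  have h2 := two_mul_finrank_cuspForm N
  omega

/-- **Main result of this file**: a homomorphism from `Γ₀(N)` to an abelian group of finite
exponent which kills all non-hyperbolic elements factors through the period lattice. -/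
theorem eq_zero_of_perHom_eq_zero {M : Type} [AddCommGroup M] (n : ℕ) (hn : 0 < n)
    (hM : ∀ m : M, n • m = 0) (φ : Additive (Gamma0 N) →+ M)
    (hφ : ∀ γ : Gamma0 N, ((γ : SL(2, ℤ)) : Matrix (Fin 2) (Fin 2) ℤ).trace ^ 2 ≤ 4 →
      φ (Additive.ofMul γ) = 0)
    (x : Additive (Gamma0 N)) (hx : perHom N x = 0) : φ x = 0 := by
  refine kills_ker_of_exponent (perPi N) (perPi_surjective N)
    {e | ((((Additive.toMul e : Gamma0 N) : SL(2, ℤ)) : Matrix (Fin 2) (Fin 2) ℤ)).trace ^ 2 ≤ 4}
    ?_ ?_ n hn M hM φ ?_ x ((perPi_eq_zero_iff N x).mpr hx)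
  · intro e he
    exact (perPi_eq_zero_iff N e).mpr (perHom_eq_zero_of_trace N (Additive.toMul e) he)
  · intro ℓ _ ψ hψ y hy
    have hmem : ψ ∈ neHoms (ZMod ℓ) (Gamma0 N) (ZMod ℓ) := fun γ hγ => hψ (Additive.ofMul γ) hγ
    rw [← range_compPi_eq_neHoms] at hmem
    obtain ⟨l, rfl⟩ := hmem
    rw [compPi_apply, hy, map_zero]
  · intro e he
    exact hφ (Additive.toMul e) he

/-- The induced homomorphism on the period lattice. -/
theorem exists_hom_perLat {M : Type} [AddCommGroup M] (n : ℕ) (hn : 0 < n)
    (hM : ∀ m : M, n • m = 0) (φ : Additive (Gamma0 N) →+ M)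
    (hφ : ∀ γ : Gamma0 N, ((γ : SL(2, ℤ)) : Matrix (Fin 2) (Fin 2) ℤ).trace ^ 2 ≤ 4 →
      φ (Additive.ofMul γ) = 0) :
    ∃ l : perLat N →+ M, ∀ γ, l (perPi N γ) = φ γ := by
  have hker : ∀ y, perPi N y = 0 → φ y = 0 := fun y hy =>
    eq_zero_of_perHom_eq_zero N n hn hM φ hφ y ((perPi_eq_zero_iff N y).mp hy)
  refine ⟨(perPi N).liftOfRightInverse (Function.surjInv (perPi_surjective N))
      (Function.rightInverse_surjInv (perPi_surjective N)) ⟨φ, fun y hy => hker y hy⟩, fun γ => ?_⟩
  exact AddMonoidHom.liftOfRightInverse_comp_apply (perPi N) _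
    (Function.rightInverse_surjInv (perPi_surjective N)) ⟨φ, fun y hy => hker y hy⟩ γ

end

end Fermat.Agent.S16.Lower
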