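import Fermat.Agent.S16.Lower.Eis
import Fermat.Agent.S23
import Fermat.Prelude.Def_CuspForm_HeckeLocal
import Fermat.Prelude.Def_ModularCurve_ModularUnit

/-!
# S16, lower bound: the Eisenstein character `HeckeAlg → ℤ/n` factors through the Hecke algebra

`n = (p - 1) / gcd (p - 1, 12)`.
-/

set_option autoImplicit false

namespace Fermat.Agent.S16.Lower

open CongruenceSubgroup ModularCurve CuspForm
open scoped MatrixGroups

variable (p : ℕ) [Fact p.Prime]

theorem eis_heckeFormsGen (ℓ : Nat.Primes) :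
    Eis p ((heckeFormsGen p 2 ℓ : heckeAlgebra p 2 ∅) :
      Module.End ℂ (CuspForm (Gamma0 p) 2)) (eisensteinSystem p ℓ) := by
  by_cases h : (ℓ : ℕ) ∣ p
  · rw [heckeFormsGen_of_dvd h, eisensteinSystem_of_dvd h, heckeAlgebra.coe_U]
    have hℓ : (ℓ : ℕ) = p := (Nat.prime_dvd_prime_iff_eq ℓ.2 Fact.out).mp h
    obtain ⟨ℓ, hℓ'⟩ := ℓ
    simp only at hℓ h
    subst hℓ
    exact eis_U ℓ
  · rw [heckeFormsGen_of_not_dvd h, eisensteinSystem_of_not_dvd h, heckeAlgebra.coe_T]
    exact eis_T p ℓ.2 h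

theorem eis_heckeEvalForms (Q : HeckeAlg) :
    Eis p ((heckeEvalForms p 2 Q : heckeAlgebra p 2 ∅) : Module.End ℂ (CuspForm (Gamma0 p) 2))
      (MvPolynomial.aeval (eisensteinSystem p) Q) := by
  induction Q using MvPolynomial.induction_on with
  | C a =>
    rw [heckeEvalForms_C, MvPolynomial.aeval_C]
    exact Eis.algebraMap p a
  | add Q Q' h h' =>
    rw [map_add, map_add]
    exact h.add p h'
  | mul_X Q ℓ h =>
    rw [map_mul, map_mul, MvPolynomial.aeval_X]
    have := heckeEvalForms_heckeGen p 2 ℓ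
    rw [heckeGen] at this
    rw [this]
    exact h.mul p (eis_heckeFormsGen p ℓ)

/-- **Lower bound for S16.**  A polynomial in the Hecke operators acting as zero on
`S₂(Γ₀(p))` has Eisenstein eigenvalue divisible by `n`. -/
theorem eisensteinNumerator_dvd_aeval (Q : HeckeAlg) (hQ : heckeEvalForms p 2 Q = 0) :
    (eisensteinNumerator p : ℤ) ∣ MvPolynomial.aeval (eisensteinSystem p) Q := by
  apply dvd_of_zsmul_phi0_eq_zero
  intro γ
  obtain ⟨γ₂, h1, h2⟩ := eis_heckeEvalForms p Q γ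
  rw [← h2]
  rw [hQ] at h1
  have hp1 : 0 < p - 1 := by
    have := (Fact.out : p.Prime).one_lt
    omega
  refine eq_zero_of_perHom_eq_zero p (p - 1) hp1 ?_ (phi0 p) (phi0_eq_zero_of_trace p) γ₂ ?_
  · intro m
    exact congrArg Additive.ofMul (ZMod.units_pow_card_sub_one_eq_one p (Additive.toMul m))
  · rw [← h1]
    ext f
    simp

end Fermat.Agent.S16.Lower
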