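import Mathlib

/-!
# Sums over a finite set decomposed along the orbits of one element
-/

set_option autoImplicit false

namespace Fermat.Agent.S16.Lower

open Function

theorem sum_orbit_zpowers {G X M : Type*} [Group G] [MulAction G X] [AddCommMonoid M]
    (a : G) (b : X) [Fintype (MulAction.orbit (Subgroup.zpowers a) b)]
    (hk : 0 < minimalPeriod (a • ·) b) (w : X → M) :
    ∑ y : MulAction.orbit (Subgroup.zpowers a) b, w y.1
      = ∑ i ∈ Finset.range (minimalPeriod (a • ·) b), w (a ^ i • b) := by
  classical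
  have : NeZero (minimalPeriod (a • ·) b) := ⟨hk.ne'⟩
  rw [← Equiv.sum_comp (MulAction.orbitZPowersEquiv a b).symm (fun y => w y.1)]
  have h1 : ∀ j : ZMod (minimalPeriod (a • ·) b),
      (((MulAction.orbitZPowersEquiv a b).symm j : MulAction.orbit (Subgroup.zpowers a) b) : X)
        = a ^ j.val • b := by
    intro j
    rw [MulAction.orbitZPowersEquiv_symm_apply]
    have : ((ZMod.cast j : ℤ)) = (j.val : ℤ) := by
      rw [ZMod.natCast_val]
    rw [this, zpow_natCast]
    rfl
  simp only [h1]
  refine (Finset.sum_nbij' (fun j : ℕ ↦ (j : ZMod (minimalPeriod (a • ·) b)))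
    (fun x : ZMod (minimalPeriod (a • ·) b) ↦ x.val) (fun _ _ ↦ Finset.mem_univ _)
    (fun x _ ↦ Finset.mem_range.mpr x.val_lt) (fun j hj ↦ ?_) (fun x _ ↦ ?_) (fun j hj ↦ ?_)).symm
  · exact ZMod.val_cast_of_lt (Finset.mem_range.mp hj)
  · exact ZMod.natCast_zmod_val x
  · rw [ZMod.val_cast_of_lt (Finset.mem_range.mp hj)]

/-- If the sum of `w` over each orbit of `a` vanishes, then the total sum vanishes. -/
theorem sum_eq_zero_of_orbit_sums {G X M : Type*} [Group G] [MulAction G X] [Fintype X]
    [AddCommMonoid M] (a : G) (w : X → M)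
    (h : ∀ x, ∑ i ∈ Finset.range (minimalPeriod (a • ·) x), w (a ^ i • x) = 0) :
    ∑ x, w x = 0 := by
  classical
  have hpos : ∀ x : X, 0 < minimalPeriod (a • ·) x := by
    intro x
    exact Function.minimalPeriod_pos_of_mem_periodicPts
      ((MulAction.injective a).mem_periodicPts x)
  rw [← Equiv.sum_comp (MulAction.selfEquivSigmaOrbits (Subgroup.zpowers a) X).symm w,
    Fintype.sum_sigma]
  refine Finset.sum_eq_zero fun ω _ => ?_
  have := sum_orbit_zpowers a (Quotient.out ω) (hpos _) w
  rw [h] at this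
  rw [← this]
  rfl

end Fermat.Agent.S16.Lower
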