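import Fermat.Agent.S16.Lower.OrbitSum
import Fermat.Agent.ES.PermLA
import Fermat.Prelude.Def_ModularCurve_PeriodMap

/-!
# `dim_K Hom_ne(Γ, K) ≤ μ - o(S) - o(ST) - o(T) + 2` over an arbitrary field `K`

`Hom_ne(Γ, K)`: homomorphisms killing all elements with `trace ^ 2 ≤ 4` (parabolic, elliptic, `±1`).
This is the proof of `Fermat/Agent/ES/ShapiroK.lean`, made characteristic free: the averaging step
is replaced by an orbitwise computation.
-/

set_option autoImplicit false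

namespace Fermat.Agent.S16.Lower

open ModularCurve.Period
open scoped MatrixGroups


/-- Functions on `X` with values in `K` invariant under a permutation. -/
def permInvK (K : Type*) [Field K] {X : Type*} (σ : Equiv.Perm X) : Submodule K (X → K) where
  carrier := {v | ∀ x, v (σ x) = v x}
  zero_mem' := fun _ => rfl
  add_mem' := by
    intro a b ha hb x
    simp only [Pi.add_apply, ha x, hb x]
  smul_mem' := by
    intro c a ha x
    simp only [Pi.smul_apply, ha x]

/-- Homomorphisms killing all non-hyperbolic elements. -/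
def neHoms (R : Type*) [Semiring R] (Γ : Subgroup SL(2, ℤ)) (A : Type*) [AddCommGroup A]
    [Module R A] : Submodule R (Additive Γ →+ A) where
  carrier := {φ | ∀ γ : Γ, ((γ : SL(2, ℤ)) : Matrix (Fin 2) (Fin 2) ℤ).trace ^ 2 ≤ 4 →
    φ (Additive.ofMul γ) = 0}
  zero_mem' := fun _ _ => rfl
  add_mem' := by
    intro φ ψ hφ hψ γ hγ
    show φ (Additive.ofMul γ) + ψ (Additive.ofMul γ) = 0
    rw [hφ γ hγ, hψ γ hγ, add_zero]
  smul_mem' := by
    intro c φ hφ γ hγ
    show c • φ (Additive.ofMul γ) = 0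
    rw [hφ γ hγ, smul_zero]

namespace ShapiroK

variable {K : Type*} [Field K]

/-- Two subspaces orthogonal for a nondegenerate pairing. -/
theorem finrank_add_le_of_orthogonal {E : Type*} [AddCommGroup E] [Module K E]
    [FiniteDimensional K E]
    (B : E →ₗ[K] Module.Dual K E) (hB : Function.Injective B) (M₁ M₂ : Submodule K E)
    (h : ∀ a ∈ M₁, ∀ b ∈ M₂, B b a = 0) :
    Module.finrank K M₁ + Module.finrank K M₂ ≤ Module.finrank K E := by
  have h1 : M₂.map B ≤ M₁.dualAnnihilator := by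
    rintro _ ⟨b, hb, rfl⟩
    rw [Submodule.mem_dualAnnihilator]
    intro a ha
    exact h a ha b hb
  have h2 : Module.finrank K (M₂.map B) = Module.finrank K M₂ :=
    (Submodule.equivMapOfInjective B hB M₂).finrank_eq.symm
  have h3 := Subspace.finrank_add_finrank_dualAnnihilator_eq M₁
  have h4 := Submodule.finrank_mono h1
  omega

variable {Γ : Subgroup SL(2, ℤ)}

theorem kap_mem (g : SL(2, ℤ)) (x : SL(2, ℤ) ⧸ Γ) :
    (g • x).out⁻¹ * g * x.out ∈ Γ := by
  rw [mul_assoc, ← QuotientGroup.eq]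
  rw [QuotientGroup.out_eq']
  conv_lhs => rw [← QuotientGroup.out_eq' x]
  rfl

/-- The `Γ`-valued cocycle attached to the section `x ↦ x.out`. -/
noncomputable def kap (g : SL(2, ℤ)) (x : SL(2, ℤ) ⧸ Γ) : Γ :=
  ⟨(g • x).out⁻¹ * g * x.out, kap_mem g x⟩

theorem kap_mul (g h : SL(2, ℤ)) (x : SL(2, ℤ) ⧸ Γ) :
    kap (g * h) x = kap g (h • x) * kap h x := by
  apply Subtype.ext
  simp only [kap, Subgroup.coe_mul, mul_smul]
  group

/-- The cocycle attached to `(φ, v)`. -/
noncomputable def coc (g : SL(2, ℤ)) :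
    (neHoms K Γ K × ((SL(2, ℤ) ⧸ Γ) → K)) →ₗ[K] ((SL(2, ℤ) ⧸ Γ) → K) where
  toFun p := fun x => p.1.1 (Additive.ofMul (kap g x)) + p.2 (g • x) - p.2 x
  map_add' p q := by
    funext x
    simp only [Prod.fst_add, Prod.snd_add, Submodule.coe_add, AddMonoidHom.add_apply, Pi.add_apply]
    ring
  map_smul' c p := by
    funext x
    simp only [Prod.smul_fst, Prod.smul_snd, Submodule.coe_smul, AddMonoidHom.smul_apply,
      Pi.smul_apply, RingHom.id_apply, smul_eq_mul]
    ring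

theorem coc_apply (g : SL(2, ℤ)) (p : neHoms K Γ K × ((SL(2, ℤ) ⧸ Γ) → K))
    (x : SL(2, ℤ) ⧸ Γ) :
    coc g p x = p.1.1 (Additive.ofMul (kap g x)) + p.2 (g • x) - p.2 x := rfl

theorem coc_mul (g h : SL(2, ℤ)) (p : neHoms K Γ K × ((SL(2, ℤ) ⧸ Γ) → K))
    (x : SL(2, ℤ) ⧸ Γ) :
    coc (g * h) p x = coc g p (h • x) + coc h p x := by
  simp only [coc_apply, kap_mul, ofMul_mul, map_add, mul_smul]
  ring

theorem coc_one (p : neHoms K Γ K × ((SL(2, ℤ) ⧸ Γ) → K)) (x : SL(2, ℤ) ⧸ Γ) :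
    coc 1 p x = 0 := by
  have h := coc_mul 1 1 p x
  rw [mul_one, one_smul] at h
  exact left_eq_add.mp h

theorem coc_pow (g : SL(2, ℤ)) (m : ℕ) (p : neHoms K Γ K × ((SL(2, ℤ) ⧸ Γ) → K))
    (x : SL(2, ℤ) ⧸ Γ) :
    coc (g ^ m) p x = ∑ i ∈ Finset.range m, coc g p (g ^ i • x) := by
  induction m with
  | zero => simp [coc_one]
  | succ m ih => rw [pow_succ', coc_mul, Finset.sum_range_succ, ih, add_comm]

theorem trace_conj (a g : SL(2, ℤ)) :
    ((a⁻¹ * g * a : SL(2, ℤ)) : Matrix (Fin 2) (Fin 2) ℤ).trace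
      = (g : Matrix (Fin 2) (Fin 2) ℤ).trace := by
  rw [Matrix.SpecialLinearGroup.coe_mul, Matrix.trace_mul_comm,
    ← Matrix.SpecialLinearGroup.coe_mul]
  congr 2
  rw [mul_inv_cancel_left]

/-- The subgroup of elements leaving `u` invariant. -/
def stab (u : (SL(2, ℤ) ⧸ Γ) → K) : Subgroup SL(2, ℤ) where
  carrier := {g | ∀ x, u (g • x) = u x}
  mul_mem' := by
    intro a b ha hb x
    rw [mul_smul, ha, hb]
  one_mem' := by
    intro x
    rw [one_smul]
  inv_mem' := by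
    intro a ha x
    have := ha (a⁻¹ • x)
    rw [smul_inv_smul] at this
    exact this.symm

theorem mem_stab {u : (SL(2, ℤ) ⧸ Γ) → K} {g : SL(2, ℤ)} :
    g ∈ stab u ↔ ∀ x, u (g • x) = u x := Iff.rfl

/-- The subgroup on which the cocycle vanishes. -/
def vanish (p : neHoms K Γ K × ((SL(2, ℤ) ⧸ Γ) → K)) : Subgroup SL(2, ℤ) where
  carrier := {g | ∀ x, coc g p x = 0}
  mul_mem' := by
    intro a b ha hb x
    rw [coc_mul, ha, hb, add_zero]
  one_mem' := coc_one p
  inv_mem' := by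
    intro a ha x
    have := coc_mul a⁻¹ a p (a⁻¹ • x)
    rw [inv_mul_cancel, coc_one, smul_inv_smul, ha, add_zero] at this
    exact this.symm

theorem mem_vanish {p : neHoms K Γ K × ((SL(2, ℤ) ⧸ Γ) → K)} {g : SL(2, ℤ)} :
    g ∈ vanish p ↔ ∀ x, coc g p x = 0 := Iff.rfl

theorem eq_top_of_S_T_mem (K : Subgroup SL(2, ℤ)) (hS : ModularGroup.S ∈ K)
    (hT : ModularGroup.T ∈ K) : K = ⊤ := by
  rw [eq_top_iff, ← SpecialLinearGroup.SL2Z_generators, Subgroup.closure_le]
  rintro x (rfl | rfl) <;> assumption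

theorem const_of_stab_eq_top (u : (SL(2, ℤ) ⧸ Γ) → K) (h : stab u = ⊤) (x : SL(2, ℤ) ⧸ Γ) :
    u x = u ((1 : SL(2, ℤ)) : SL(2, ℤ) ⧸ Γ) := by
  have h1 : x.out ∈ stab u := h ▸ Subgroup.mem_top _
  have h2 := h1 ((1 : SL(2, ℤ)) : SL(2, ℤ) ⧸ Γ)
  rw [← h2]
  congr 1
  conv_lhs => rw [← QuotientGroup.out_eq' x]
  show _ = ((x.out * 1 : SL(2, ℤ)) : SL(2, ℤ) ⧸ Γ)
  rw [mul_one]

theorem fst_eq_zero_of_vanish (p : neHoms K Γ K × ((SL(2, ℤ) ⧸ Γ) → K))
    (h : vanish p = ⊤) : p.1 = 0 := by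
  apply Subtype.ext
  apply AddMonoidHom.ext
  intro a
  obtain ⟨γ, rfl⟩ := Additive.ofMul.surjective a
  set x0 : SL(2, ℤ) ⧸ Γ := ((1 : SL(2, ℤ)) : SL(2, ℤ) ⧸ Γ) with hx0
  have hfix : (γ : SL(2, ℤ)) • x0 = x0 := by
    show (((γ : SL(2, ℤ)) * 1 : SL(2, ℤ)) : SL(2, ℤ) ⧸ Γ) = _
    rw [hx0, QuotientGroup.eq]
    simp
  have hout : x0.out ∈ Γ := by
    have h1 : ((x0.out : SL(2, ℤ)) : SL(2, ℤ) ⧸ Γ) = ((1 : SL(2, ℤ)) : SL(2, ℤ) ⧸ Γ) :=
      QuotientGroup.out_eq' x0
    rw [QuotientGroup.eq] at h1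
    simpa using h1
  have hk : kap (γ : SL(2, ℤ)) x0 = (⟨x0.out, hout⟩ : Γ)⁻¹ * γ * ⟨x0.out, hout⟩ := by
    apply Subtype.ext
    simp only [kap, hfix, Subgroup.coe_mul, Subgroup.coe_inv]
  have h1 : (γ : SL(2, ℤ)) ∈ vanish p := h ▸ Subgroup.mem_top _
  have h2 := h1 x0
  rw [coc_apply, hfix, hk, ofMul_mul, ofMul_mul, ofMul_inv, map_add, map_add, map_neg] at h2
  simp only [ZeroMemClass.coe_zero, AddMonoidHom.zero_apply]
  linear_combination h2

theorem snd_const_of_vanish (p : neHoms K Γ K × ((SL(2, ℤ) ⧸ Γ) → K))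
    (h : vanish p = ⊤) (x : SL(2, ℤ) ⧸ Γ) :
    p.2 x = p.2 ((1 : SL(2, ℤ)) : SL(2, ℤ) ⧸ Γ) := by
  apply const_of_stab_eq_top
  rw [eq_top_iff]
  intro g _ y
  have h1 : g ∈ vanish p := h ▸ Subgroup.mem_top _
  have h2 := h1 y
  rw [coc_apply, fst_eq_zero_of_vanish p h] at h2
  simp only [ZeroMemClass.coe_zero, AddMonoidHom.zero_apply, zero_add] at h2
  linear_combination h2

theorem sum_mul_coc_eq_zero [Γ.FiniteIndex] (g : SL(2, ℤ))
    (htr : ∀ m : ℕ, ((g ^ m : SL(2, ℤ)) : Matrix (Fin 2) (Fin 2) ℤ).trace ^ 2 ≤ 4)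
    (p : neHoms K Γ K × ((SL(2, ℤ) ⧸ Γ) → K)) (u : (SL(2, ℤ) ⧸ Γ) → K)
    (hu : ∀ x, u (g • x) = u x) :
    ∑ x, u x * coc g p x = 0 := by
  apply sum_eq_zero_of_orbit_sums g
  intro x
  have hfix : g ^ (Function.minimalPeriod (g • ·) x) • x = x :=
    MulAction.pow_smul_eq_iff_minimalPeriod_dvd.mpr dvd_rfl
  have hui : ∀ i : ℕ, u (g ^ i • x) = u x := fun i => (stab u).pow_mem (mem_stab.2 hu) i x
  simp only [hui]
  rw [← Finset.mul_sum, ← coc_pow, coc_apply, hfix, add_sub_cancel_right]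
  have : p.1.1 (Additive.ofMul (kap (g ^ (Function.minimalPeriod (g • ·) x)) x)) = 0 := by
    apply p.1.2
    simp only [kap, hfix]
    rw [trace_conj]
    exact htr _
  rw [this, mul_zero]

theorem trace_S_inv_pow (m : ℕ) :
    (((ModularGroup.S⁻¹) ^ m : SL(2, ℤ)) : Matrix (Fin 2) (Fin 2) ℤ).trace ^ 2 ≤ 4 := by
  have h4 : (ModularGroup.S⁻¹) ^ 4 = (1 : SL(2, ℤ)) := by decide
  rw [pow_eq_pow_mod m h4]
  have hlt : m % 4 < 4 := Nat.mod_lt _ (by norm_num)
  interval_cases (m % 4) <;> decide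

theorem trace_U_pow (m : ℕ) :
    (((ModularGroup.S * ModularGroup.T) ^ m : SL(2, ℤ)) : Matrix (Fin 2) (Fin 2) ℤ).trace ^ 2
      ≤ 4 := by
  have h6 : (ModularGroup.S * ModularGroup.T) ^ 6 = (1 : SL(2, ℤ)) := by decide
  rw [pow_eq_pow_mod m h6]
  have hlt : m % 6 < 6 := Nat.mod_lt _ (by norm_num)
  interval_cases (m % 6) <;> decide

theorem trace_T_pow (m : ℕ) :
    ((ModularGroup.T ^ m : SL(2, ℤ)) : Matrix (Fin 2) (Fin 2) ℤ).trace ^ 2 = 4 := by
  have h := ModularGroup.coe_T_zpow (m : ℤ)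
  rw [zpow_natCast] at h
  rw [h, Matrix.trace_fin_two_of]
  norm_num

theorem finrank_le_one_of_functional {M : Type*} [AddCommGroup M] [Module K M] (f : M →ₗ[K] K)
    (hf : ∀ m, f m = 0 → m = 0) : Module.finrank K M ≤ 1 := by
  have h := LinearMap.finrank_le_finrank_of_injective (f := f)
    ((injective_iff_map_eq_zero f).2 hf)
  simpa using h

/-- The map `(φ, v) ↦ (c(S⁻¹), c(U))`. -/
noncomputable def Phi :
    (neHoms K Γ K × ((SL(2, ℤ) ⧸ Γ) → K)) →ₗ[K]
      ((SL(2, ℤ) ⧸ Γ) → K) × ((SL(2, ℤ) ⧸ Γ) → K) :=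
  (coc ModularGroup.S⁻¹).prod (coc (ModularGroup.S * ModularGroup.T))

theorem vanish_eq_top_of_Phi (p : neHoms K Γ K × ((SL(2, ℤ) ⧸ Γ) → K))
    (h : Phi p = 0) : vanish p = ⊤ := by
  have h1 : coc ModularGroup.S⁻¹ p = 0 := congrArg Prod.fst h
  have h2 : coc (ModularGroup.S * ModularGroup.T) p = 0 := congrArg Prod.snd h
  have m1 : ModularGroup.S⁻¹ ∈ vanish p := fun x => congrFun h1 x
  have m2 : ModularGroup.S * ModularGroup.T ∈ vanish p := fun x => congrFun h2 x
  apply eq_top_of_S_T_mem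
  · simpa using (vanish p).inv_mem m1
  · simpa using (vanish p).mul_mem m1 m2

theorem finrank_ker_Phi_le : Module.finrank K (LinearMap.ker (Phi (K := K) (Γ := Γ))) ≤ 1 := by
  refine finrank_le_one_of_functional (M := LinearMap.ker (Phi (K := K) (Γ := Γ)))
    (((LinearMap.proj ((1 : SL(2, ℤ)) : SL(2, ℤ) ⧸ Γ)) ∘ₗ
      (LinearMap.snd K (neHoms K Γ K) ((SL(2, ℤ) ⧸ Γ) → K))) ∘ₗ
      (LinearMap.ker (Phi (K := K) (Γ := Γ))).subtype) ?_
  rintro ⟨p, hp⟩ h
  have hv := vanish_eq_top_of_Phi p hp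
  apply Subtype.ext
  apply Prod.ext
  · exact fst_eq_zero_of_vanish p hv
  · funext x
    rw [snd_const_of_vanish p hv x]
    exact h

theorem finite_parabolicHoms [Γ.FiniteIndex] : Module.Finite K (neHoms K Γ K) := by
  apply Module.Finite.of_injective
    (Phi (K := K) (Γ := Γ) ∘ₗ LinearMap.inl K (neHoms K Γ K) ((SL(2, ℤ) ⧸ Γ) → K))
  rw [injective_iff_map_eq_zero]
  intro φ h
  exact fst_eq_zero_of_vanish (φ, 0) (vanish_eq_top_of_Phi (φ, 0) h)

/-- The map `(p, q, u) ↦ (p + u ∘ U⁻¹, q + u)`. -/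
noncomputable def Omega :
    (permInvK K (MulAction.toPerm ModularGroup.S : Equiv.Perm (SL(2, ℤ) ⧸ Γ)) ×
      permInvK K (MulAction.toPerm (ModularGroup.S * ModularGroup.T) : Equiv.Perm (SL(2, ℤ) ⧸ Γ)) ×
      permInvK K (MulAction.toPerm ModularGroup.T : Equiv.Perm (SL(2, ℤ) ⧸ Γ))) →ₗ[K]
      ((SL(2, ℤ) ⧸ Γ) → K) × ((SL(2, ℤ) ⧸ Γ) → K) where
  toFun t := (fun x => t.1.1 x + t.2.2.1 ((ModularGroup.S * ModularGroup.T)⁻¹ • x),
    fun x => t.2.1.1 x + t.2.2.1 x)
  map_add' s t := by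
    apply Prod.ext <;> funext x <;>
    simp only [Prod.fst_add, Prod.snd_add, Submodule.coe_add, Pi.add_apply, Prod.mk_add_mk] <;>
    ring
  map_smul' c t := by
    apply Prod.ext <;> funext x <;>
    simp only [Prod.smul_fst, Prod.smul_snd, Submodule.coe_smul, Pi.smul_apply, RingHom.id_apply,
      smul_eq_mul, Prod.smul_mk] <;>
    ring

theorem finrank_ker_Omega_le : Module.finrank K (LinearMap.ker (Omega (K := K) (Γ := Γ))) ≤ 1 := by
  refine finrank_le_one_of_functional (M := LinearMap.ker (Omega (K := K) (Γ := Γ)))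
    ((((LinearMap.proj ((1 : SL(2, ℤ)) : SL(2, ℤ) ⧸ Γ)) ∘ₗ
      (permInvK K (MulAction.toPerm ModularGroup.T : Equiv.Perm (SL(2, ℤ) ⧸ Γ))).subtype) ∘ₗ
      (LinearMap.snd K _ _ ∘ₗ LinearMap.snd K _ _)) ∘ₗ
      (LinearMap.ker (Omega (K := K) (Γ := Γ))).subtype) ?_
  rintro ⟨⟨p, q, u⟩, ht⟩ h
  have h1 : ∀ x, p.1 x + u.1 ((ModularGroup.S * ModularGroup.T)⁻¹ • x) = 0 :=
    fun x => congrFun (congrArg Prod.fst ht) x
  have h2 : ∀ x, q.1 x + u.1 x = 0 := fun x => congrFun (congrArg Prod.snd ht) x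
  have mT : ModularGroup.T ∈ stab u.1 := fun x => u.2 x
  have mU : ModularGroup.S * ModularGroup.T ∈ stab u.1 := by
    intro x
    have e1 := h2 ((ModularGroup.S * ModularGroup.T) • x)
    have e2 := h2 x
    have e3 : q.1 ((ModularGroup.S * ModularGroup.T) • x) = q.1 x := q.2 x
    linear_combination e1 - e2 - e3
  have htop : stab u.1 = ⊤ := by
    apply eq_top_of_S_T_mem _ _ mT
    simpa using (stab u.1).mul_mem mU ((stab u.1).inv_mem mT)
  have hu : ∀ x, u.1 x = 0 := by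
    intro x
    rw [const_of_stab_eq_top u.1 htop x]
    exact h
  apply Subtype.ext
  refine Prod.ext ?_ (Prod.ext ?_ ?_)
  · apply Subtype.ext
    funext x
    have := h1 x
    rw [hu, add_zero] at this
    exact this
  · apply Subtype.ext
    funext x
    have := h2 x
    rw [hu, add_zero] at this
    exact this
  · apply Subtype.ext
    funext x
    exact hu x

/-- The standard pairing on `(X → K) × (X → K)`. -/
noncomputable def pairing [Γ.FiniteIndex] :
    (((SL(2, ℤ) ⧸ Γ) → K) × ((SL(2, ℤ) ⧸ Γ) → K)) →ₗ[K]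
      Module.Dual K (((SL(2, ℤ) ⧸ Γ) → K) × ((SL(2, ℤ) ⧸ Γ) → K)) :=
  LinearMap.mk₂ K (fun a b => ∑ x, a.1 x * b.1 x + ∑ x, a.2 x * b.2 x)
    (by
      intro a a' b
      simp only [Prod.fst_add, Prod.snd_add, Pi.add_apply, add_mul, Finset.sum_add_distrib]
      ring)
    (by
      intro c a b
      simp only [Prod.smul_fst, Prod.smul_snd, Pi.smul_apply, smul_eq_mul, mul_assoc,
        ← Finset.mul_sum, mul_add])
    (by
      intro a b b'
      simp only [Prod.fst_add, Prod.snd_add, Pi.add_apply, mul_add, Finset.sum_add_distrib]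
      ring)
    (by
      intro c a b
      simp only [Prod.smul_fst, Prod.smul_snd, Pi.smul_apply, smul_eq_mul, mul_left_comm _ c,
        ← Finset.mul_sum, mul_add])

theorem pairing_apply [Γ.FiniteIndex] (a b : ((SL(2, ℤ) ⧸ Γ) → K) × ((SL(2, ℤ) ⧸ Γ) → K)) :
    pairing a b = ∑ x, a.1 x * b.1 x + ∑ x, a.2 x * b.2 x := rfl

theorem pairing_injective [Γ.FiniteIndex] : Function.Injective (pairing (K := K) (Γ := Γ)) := by
  classical
  rw [injective_iff_map_eq_zero]
  intro a h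
  apply Prod.ext
  · funext x
    have := LinearMap.congr_fun h (Pi.single x 1, 0)
    simpa [pairing_apply, Pi.single_apply] using this
  · funext x
    have := LinearMap.congr_fun h (0, Pi.single x 1)
    simpa [pairing_apply, Pi.single_apply] using this

theorem pairing_Omega_Phi [Γ.FiniteIndex]
    (t : permInvK K (MulAction.toPerm ModularGroup.S : Equiv.Perm (SL(2, ℤ) ⧸ Γ)) ×
      permInvK K (MulAction.toPerm (ModularGroup.S * ModularGroup.T) : Equiv.Perm (SL(2, ℤ) ⧸ Γ)) ×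
      permInvK K (MulAction.toPerm ModularGroup.T : Equiv.Perm (SL(2, ℤ) ⧸ Γ)))
    (p : neHoms K Γ K × ((SL(2, ℤ) ⧸ Γ) → K)) :
    pairing (Omega t) (Phi p) = 0 := by
  obtain ⟨a, b, u⟩ := t
  have hS : ∑ x, a.1 x * coc ModularGroup.S⁻¹ p x = 0 :=
    sum_mul_coc_eq_zero ModularGroup.S⁻¹ trace_S_inv_pow p a.1
      ((stab a.1).inv_mem (fun x => a.2 x))
  have hU : ∑ x, b.1 x * coc (ModularGroup.S * ModularGroup.T) p x = 0 :=
    sum_mul_coc_eq_zero (ModularGroup.S * ModularGroup.T) trace_U_pow p b.1 (fun x => b.2 x)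
  have hT : ∑ x, u.1 x * coc ModularGroup.T p x = 0 :=
    sum_mul_coc_eq_zero ModularGroup.T (fun m => (trace_T_pow m).le) p u.1 (fun x => u.2 x)
  have hre : ∑ x, u.1 ((ModularGroup.S * ModularGroup.T)⁻¹ • x) * coc ModularGroup.S⁻¹ p x
      = ∑ x, u.1 x * coc ModularGroup.S⁻¹ p ((ModularGroup.S * ModularGroup.T) • x) := by
    rw [← Equiv.sum_comp (MulAction.toPerm (ModularGroup.S * ModularGroup.T))
      (fun x => u.1 ((ModularGroup.S * ModularGroup.T)⁻¹ • x) * coc ModularGroup.S⁻¹ p x)]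
    simp only [MulAction.toPerm_apply, inv_smul_smul]
  have hTT : ∀ x, coc ModularGroup.T p x
      = coc ModularGroup.S⁻¹ p ((ModularGroup.S * ModularGroup.T) • x)
        + coc (ModularGroup.S * ModularGroup.T) p x := by
    intro x
    rw [← coc_mul, inv_mul_cancel_left]
  rw [pairing_apply]
  show ∑ x, (a.1 x + u.1 ((ModularGroup.S * ModularGroup.T)⁻¹ • x)) * coc ModularGroup.S⁻¹ p x
    + ∑ x, (b.1 x + u.1 x) * coc (ModularGroup.S * ModularGroup.T) p x = 0
  simp only [hTT, mul_add, Finset.sum_add_distrib] at hT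
  simp only [add_mul, Finset.sum_add_distrib]
  rw [hS, hU, hre]
  linear_combination hT

end ShapiroK

theorem finrank_neHoms_le (K : Type*) [Field K] (Γ : Subgroup SL(2, ℤ)) [Γ.FiniteIndex] :
    Module.Finite K (neHoms K Γ K) ∧
      Module.finrank K (neHoms K Γ K)
        + Module.finrank K
            (permInvK K (MulAction.toPerm ModularGroup.S : Equiv.Perm (SL(2, ℤ) ⧸ Γ)))
        + Module.finrank K (permInvK K
            (MulAction.toPerm (ModularGroup.S * ModularGroup.T) : Equiv.Perm (SL(2, ℤ) ⧸ Γ)))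
        + Module.finrank K
            (permInvK K (MulAction.toPerm ModularGroup.T : Equiv.Perm (SL(2, ℤ) ⧸ Γ)))
        ≤ Γ.index + 2 := by
  have hfin : Module.Finite K (neHoms K Γ K) := ShapiroK.finite_parabolicHoms
  refine ⟨hfin, ?_⟩
  have h1 := LinearMap.finrank_range_add_finrank_ker (ShapiroK.Phi (K := K) (Γ := Γ))
  have h2 := LinearMap.finrank_range_add_finrank_ker (ShapiroK.Omega (K := K) (Γ := Γ))
  have h3 := ShapiroK.finrank_ker_Phi_le (K := K) (Γ := Γ)
  have h4 := ShapiroK.finrank_ker_Omega_le (K := K) (Γ := Γ)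
  have h5 := ShapiroK.finrank_add_le_of_orthogonal (ShapiroK.pairing (K := K) (Γ := Γ))
    ShapiroK.pairing_injective (LinearMap.range (ShapiroK.Phi (K := K) (Γ := Γ)))
    (LinearMap.range (ShapiroK.Omega (K := K) (Γ := Γ))) (by
      rintro _ ⟨p, rfl⟩ _ ⟨t, rfl⟩
      exact ShapiroK.pairing_Omega_Phi t p)
  have hV : Module.finrank K ((SL(2, ℤ) ⧸ Γ) → K) = Γ.index := by
    rw [Module.finrank_fintype_fun_eq_card, Subgroup.index, Nat.card_eq_fintype_card]
  rw [Module.finrank_prod, hV] at h1 h5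
  rw [Module.finrank_prod, Module.finrank_prod] at h2
  omega

/-- `dim permInvK K σ` is the number of orbits, for every field `K`. -/
theorem finrank_permInvK (K : Type*) [Field K] {X : Type} [Fintype X] (σ : Equiv.Perm X) :
    Module.finrank K (permInvK K σ)
      = Nat.card (MulAction.orbitRel.Quotient (Subgroup.zpowers σ) X) := by
  classical
  have hinv : ∀ v ∈ permInvK K σ, ∀ g : Subgroup.zpowers σ, ∀ x, v (g • x) = v x := by
    intro v hv
    let H : Subgroup (Equiv.Perm X) :=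
      { carrier := {τ | ∀ x, v (τ x) = v x}
        one_mem' := fun x => rfl
        mul_mem' := fun {a b} ha hb x => by
          rw [Equiv.Perm.mul_apply, ha, hb]
        inv_mem' := fun {a} ha x => by
          have := ha (a⁻¹ x)
          simp at this
          exact this.symm }
    have hle : Subgroup.zpowers σ ≤ H := by
      rw [Subgroup.zpowers_le]
      exact hv
    intro g x
    exact hle g.2 x
  let e : permInvK K σ ≃ₗ[K] (MulAction.orbitRel.Quotient (Subgroup.zpowers σ) X → K) :=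
    { toFun := fun v => fun q => Quotient.liftOn' q v.1 (by
        rintro a b ⟨g, rfl⟩
        exact hinv v.1 v.2 g b)
      map_add' := fun v w => by
        funext q
        induction q using Quotient.inductionOn' with
        | h a => rfl
      map_smul' := fun c v => by
        funext q
        induction q using Quotient.inductionOn' with
        | h a => rfl
      invFun := fun f => ⟨fun x => f (Quotient.mk'' x), fun x => by
        have : (Quotient.mk'' (σ x) : MulAction.orbitRel.Quotient (Subgroup.zpowers σ) X)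
            = Quotient.mk'' x := by
          apply Quotient.sound'
          exact ⟨⟨σ, Subgroup.mem_zpowers σ⟩, rfl⟩
        simp only [this]⟩
      left_inv := fun v => by
        ext x
        rfl
      right_inv := fun f => by
        funext q
        induction q using Quotient.inductionOn' with
        | h a => rfl }
  have : Fintype (MulAction.orbitRel.Quotient (Subgroup.zpowers σ) X) := Fintype.ofFinite _
  rw [e.finrank_eq, Module.finrank_fintype_fun_eq_card, Nat.card_eq_fintype_card]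

/-- The characteristic free bound, expressed with the invariants `d0` of the ES project. -/
theorem finrank_neHoms_add_d0_le (K : Type*) [Field K] (Γ : Subgroup SL(2, ℤ)) [Γ.FiniteIndex] :
    Module.Finite K (neHoms K Γ K) ∧
      Module.finrank K (neHoms K Γ K) + Fermat.Agent.ES.d0 Γ ModularGroup.S
        + Fermat.Agent.ES.d0 Γ (ModularGroup.S * ModularGroup.T)
        + Fermat.Agent.ES.d0 Γ ModularGroup.T ≤ Γ.index + 2 := by
  have h := finrank_neHoms_le K Γ
  simp only [finrank_permInvK] at h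
  simp only [Fermat.Agent.ES.d0, Fermat.Agent.ES.finrank_permInv]
  exact h

end Fermat.Agent.S16.Lower
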