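import Mathlib

/-!
# The Shimura class `γ ↦ d(γ)^12 ∈ (ℤ/p)ˣ` on `Γ₀(p)`
-/

set_option autoImplicit false

namespace Fermat.Agent.S16.Lower

open CongruenceSubgroup
open scoped MatrixGroups

variable (p : ℕ)

/-- The lower right entry modulo `p`, as a unit. -/
def del : Gamma0 p →* (ZMod p)ˣ := (Gamma0Map p).toHomUnits

theorem coe_del (γ : Gamma0 p) :
    ((del p γ : (ZMod p)ˣ) : ZMod p) = (((γ : SL(2, ℤ)) 1 1 : ℤ) : ZMod p) := rfl

/-- The Shimura class. -/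
def phi0 : Additive (Gamma0 p) →+ Additive (ZMod p)ˣ :=
  MonoidHom.toAdditive ((powMonoidHom 12).comp (del p))

theorem phi0_apply (γ : Gamma0 p) : phi0 p (Additive.ofMul γ) = Additive.ofMul (del p γ ^ 12) := rfl

theorem entries_mul_eq_one (γ : Gamma0 p) :
    (((γ : SL(2, ℤ)) 0 0 : ℤ) : ZMod p) * (((γ : SL(2, ℤ)) 1 1 : ℤ) : ZMod p) = 1 := by
  have hdet : (γ : SL(2, ℤ)) 0 0 * (γ : SL(2, ℤ)) 1 1 - (γ : SL(2, ℤ)) 0 1 * (γ : SL(2, ℤ)) 1 0
      = 1 := by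
    have := (γ : SL(2, ℤ)).det_coe
    rwa [Matrix.det_fin_two] at this
  have hc : (((γ : SL(2, ℤ)) 1 0 : ℤ) : ZMod p) = 0 := Gamma0_mem.mp γ.2
  have := congrArg (Int.cast : ℤ → ZMod p) hdet
  push_cast at this
  linear_combination this + (((γ : SL(2, ℤ)) 0 1 : ℤ) : ZMod p) * hc

variable [Fact p.Prime]

theorem phi0_eq_zero_of_trace (γ : Gamma0 p)
    (h : ((γ : SL(2, ℤ)) : Matrix (Fin 2) (Fin 2) ℤ).trace ^ 2 ≤ 4) :
    phi0 p (Additive.ofMul γ) = 0 := by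
  rw [phi0_apply]
  show Additive.ofMul (del p γ ^ 12) = Additive.ofMul 1
  congr 1
  apply Units.ext
  rw [Units.val_pow_eq_pow_val, coe_del, Units.val_one]
  set d : ZMod p := (((γ : SL(2, ℤ)) 1 1 : ℤ) : ZMod p) with hd
  set a : ZMod p := (((γ : SL(2, ℤ)) 0 0 : ℤ) : ZMod p) with ha
  have had : a * d = 1 := entries_mul_eq_one p γ
  rw [Matrix.trace_fin_two] at h
  set t : ℤ := (γ : SL(2, ℤ)).1 0 0 + (γ : SL(2, ℤ)).1 1 1 with ht
  have hat : a = (t : ZMod p) - d := by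
    rw [ht, ha, hd]; push_cast; ring
  have hq : d ^ 2 = (t : ZMod p) * d - 1 := by
    rw [hat] at had
    linear_combination -had
  have h1 : t ≤ 2 := by nlinarith
  have h2 : -2 ≤ t := by nlinarith
  have ht5 : t = -2 ∨ t = -1 ∨ t = 0 ∨ t = 1 ∨ t = 2 := by omega
  rcases ht5 with h | h | h | h | h <;> rw [h] at hq <;> push_cast at hq
  · have : (d + 1) ^ 2 = 0 := by linear_combination hq
    have h3 : d = -1 := by
      have := pow_eq_zero_iff (two_ne_zero) |>.mp this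
      linear_combination this
    rw [h3]; exact Even.neg_one_pow (by decide)
  · have h3 : d ^ 3 = 1 := by linear_combination (d - 1) * hq
    calc d ^ 12 = (d ^ 3) ^ 4 := by ring
      _ = 1 := by rw [h3, one_pow]
  · calc d ^ 12 = (d ^ 2) ^ 6 := by ring
      _ = 1 := by rw [hq]; ring
  · have h3 : d ^ 3 = -1 := by linear_combination (d + 1) * hq
    calc d ^ 12 = (d ^ 3) ^ 4 := by ring
      _ = 1 := by rw [h3]; ring
  · have : (d - 1) ^ 2 = 0 := by linear_combination hq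
    have h3 : d = 1 := by
      have := pow_eq_zero_iff (two_ne_zero) |>.mp this
      linear_combination this
    rw [h3, one_pow]

theorem del_surjective : Function.Surjective (del p) := by
  intro u
  have hp : p.Prime := Fact.out
  have hcop : IsCoprime (((u : ZMod p).val : ℤ)) (p : ℤ) := by
    rw [Nat.isCoprime_iff_coprime]
    exact (ZMod.val_coe_unit_coprime u)
  obtain ⟨a, b, hab⟩ := hcop
  let g : SL(2, ℤ) := ⟨!![a, -b; (p : ℤ), ((u : ZMod p).val : ℤ)], by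
    rw [Matrix.det_fin_two_of]; linear_combination hab⟩
  have hg : g ∈ Gamma0 p := by
    rw [Gamma0_mem]
    show (((p : ℤ)) : ZMod p) = 0
    simp
  refine ⟨⟨g, hg⟩, ?_⟩
  apply Units.ext
  rw [coe_del]
  show ((((u : ZMod p).val : ℤ)) : ZMod p) = u
  simp

/-- If `x • phi0 = 0` then `(p - 1) / gcd (p - 1, 12)` divides `x`. -/
theorem dvd_of_zsmul_phi0_eq_zero (x : ℤ) (h : ∀ γ, x • phi0 p γ = 0) :
    (((p - 1) / Nat.gcd (p - 1) 12 : ℕ) : ℤ) ∣ x := by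
  obtain ⟨g, hg⟩ := IsCyclic.exists_generator (α := (ZMod p)ˣ)
  obtain ⟨γ, hγ⟩ := del_surjective p g
  have h1 := h (Additive.ofMul γ)
  rw [phi0_apply, hγ] at h1
  have h2 : (g ^ 12) ^ x = 1 := h1
  rw [← zpow_natCast, ← zpow_mul] at h2
  have h3 : (orderOf g : ℤ) ∣ ((12 : ℕ) : ℤ) * x := orderOf_dvd_iff_zpow_eq_one.mpr h2
  have h4 : orderOf g = p - 1 := by
    rw [orderOf_eq_card_of_forall_mem_zpowers hg, Nat.card_eq_fintype_card, ZMod.card_units]
  rw [h4] at h3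
  have hpos : 0 < Nat.gcd (p - 1) 12 := Nat.gcd_pos_of_pos_right _ (by norm_num)
  obtain ⟨u, hu⟩ := Nat.gcd_dvd_left (p - 1) 12
  obtain ⟨v, hv⟩ := Nat.gcd_dvd_right (p - 1) 12
  have hcop : Nat.Coprime u v := by
    have := Nat.coprime_div_gcd_div_gcd hpos
    rwa [Nat.div_eq_of_eq_mul_right hpos hu, Nat.div_eq_of_eq_mul_right hpos hv] at this
  rw [Nat.div_eq_of_eq_mul_right hpos hu]
  have h5 : ((Nat.gcd (p - 1) 12 : ℕ) : ℤ) * (u : ℤ) ∣ ((Nat.gcd (p - 1) 12 : ℕ) : ℤ) * (v * x) := by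
    have e1 : ((p - 1 : ℕ) : ℤ) = ((Nat.gcd (p - 1) 12 : ℕ) : ℤ) * (u : ℤ) := by
      exact_mod_cast hu
    have e2 : ((12 : ℕ) : ℤ) = ((Nat.gcd (p - 1) 12 : ℕ) : ℤ) * (v : ℤ) := by
      exact_mod_cast hv
    rw [← e1, ← mul_assoc, ← e2]
    exact h3
  have h6 : (u : ℤ) ∣ v * x :=
    (mul_dvd_mul_iff_left (by exact_mod_cast hpos.ne')).mp h5
  exact (Nat.isCoprime_iff_coprime.mpr hcop).dvd_of_dvd_mul_left h6

end Fermat.Agent.S16.Lower
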